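import Mathlib.Combinatorics.Nullstellensatz
import Mathlib.RingTheory.MvPolynomial.Homogeneous
import Mathlib.Algebra.Field.ZMod
import Mathlib.Data.ZMod.Basic
import Mathlib.Data.Nat.Prime.Factorial
import Mathlib.Tactic

/-!
# Restricted sums modulo a prime

The polynomial `(X - Y) ∏ (X + Y - c)` and the combinatorial Nullstellensatz.
-/

set_option autoImplicit false

noncomputable section

open MvPolynomial Finset

namespace FA.RestrictedSums

variable {R : Type*} [CommRing R]

/-- The sums of two distinct terms. -/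
def rsum {α : Type*} [Add α] [DecidableEq α] (A B : Finset α) : Finset α :=
  ((A ×ˢ B).filter fun x => x.1 ≠ x.2).image fun x => x.1 + x.2

theorem mem_rsum {α : Type*} [Add α] [DecidableEq α] {A B : Finset α} {z : α} :
    z ∈ rsum A B ↔ ∃ x ∈ A, ∃ y ∈ B, x ≠ y ∧ x + y = z := by
  simp only [rsum, mem_image, mem_filter, mem_product, Prod.exists]
  grind

theorem rsum_mono {α : Type*} [Add α] [DecidableEq α] {A A' B B' : Finset α} (hA : A' ⊆ A)
    (hB : B' ⊆ B) : rsum A' B' ⊆ rsum A B :=
  image_subset_image (filter_subset_filter _ (product_subset_product hA hB))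

theorem coeff_add_pow (i j : ℕ) :
    coeff (Finsupp.single 0 i + Finsupp.single 1 j)
      ((X 0 + X 1 : MvPolynomial (Fin 2) R) ^ (i + j)) = ((i + j).choose i : R) := by
  rw [add_pow, coeff_sum, sum_eq_single i]
  · rw [Nat.add_sub_cancel_left, X_pow_eq_monomial, X_pow_eq_monomial, monomial_mul,
      ← map_natCast C, mul_comm, C_mul_monomial, coeff_monomial, if_pos rfl, mul_one, mul_one]
  · intro m _ hne
    rw [X_pow_eq_monomial, X_pow_eq_monomial, monomial_mul, ← map_natCast C, mul_comm,
      C_mul_monomial, coeff_monomial, if_neg]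
    intro h
    have := DFunLike.congr_fun h 0
    simp at this
    exact hne this
  · intro h
    exact absurd (mem_range.2 (Nat.lt_succ_of_le (Nat.le_add_right i j))) h

theorem coeff_top_prod {σ : Type*} (L : MvPolynomial σ R) (hL : L.totalDegree ≤ 1)
    (s : Finset R) (t : σ →₀ ℕ) (ht : t.degree = #s + 1) (M : MvPolynomial σ R)
    (hM : M.totalDegree ≤ 1) :
    coeff t (M * ∏ c ∈ s, (L - C c)) = coeff t (M * L ^ #s) := by
  classical
  have key : ∀ s : Finset R, (∏ c ∈ s, (L - C c) - L ^ #s).totalDegree ≤ #s - 1 ∧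
      (s = ∅ → ∏ c ∈ s, (L - C c) - L ^ #s = 0) := by
    intro s
    induction s using Finset.induction_on with
    | empty => simp
    | @insert c s hc ih =>
      refine ⟨?_, fun h => absurd h (insert_ne_empty c s)⟩
      rw [prod_insert hc, card_insert_of_notMem hc, Nat.add_sub_cancel,
        show (L - C c) * ∏ x ∈ s, (L - C x) - L ^ (#s + 1) =
          (L - C c) * (∏ x ∈ s, (L - C x) - L ^ #s) + -(C c * L ^ #s) by ring]
      refine (totalDegree_add _ _).trans (max_le ?_ ?_)
      · rcases s.eq_empty_or_nonempty with rfl | hs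
        · simp
        · refine (totalDegree_mul _ _).trans ?_
          have h1 : (L - C c).totalDegree ≤ 1 :=
            (totalDegree_sub _ _).trans (max_le hL (by simp))
          have := ih.1
          have := hs.card_pos
          omega
      · rw [totalDegree_neg]
        refine (totalDegree_mul _ _).trans ?_
        rw [totalDegree_C, zero_add]
        exact (totalDegree_pow _ _).trans ((Nat.mul_le_mul_left _ hL).trans_eq (mul_one _))
  obtain ⟨k1, k2⟩ := key s
  rw [← sub_eq_zero, ← coeff_sub, ← mul_sub]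
  rcases s.eq_empty_or_nonempty with rfl | hs
  · rw [k2 rfl, mul_zero, coeff_zero]
  refine coeff_eq_zero_of_totalDegree_lt ?_
  have h2 : ∑ i ∈ t.support, t i = #s + 1 := by rw [← ht, Finsupp.degree_apply]
  rw [h2]
  have := (totalDegree_mul M (∏ c ∈ s, (L - C c) - L ^ #s))
  have := hs.card_pos
  omega

variable {p : ℕ} [Fact p.Prime]

/-- The main case. -/
theorem card_main {A B : Finset (ZMod p)} (hA : 2 ≤ #A) (hB : 2 ≤ #B) (hne : #A ≠ #B)
    (hp : #A + #B ≤ p + 2) : #A + #B - 2 ≤ #(rsum A B) := by
  classical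
  by_contra! hlt
  obtain ⟨a, ha⟩ : ∃ a, #A = a + 2 := ⟨#A - 2, by omega⟩
  obtain ⟨b, hb⟩ : ∃ b, #B = b + 2 := ⟨#B - 2, by omega⟩
  obtain ⟨S, hS1, -, hS⟩ := exists_subsuperset_card_eq (subset_univ (rsum A B))
    (show #(rsum A B) ≤ a + b + 1 by omega) (by rw [card_univ, ZMod.card]; omega)
  let f : MvPolynomial (Fin 2) (ZMod p) := (X 0 - X 1) * ∏ c ∈ S, (X 0 + X 1 - C c)
  let t : Fin 2 →₀ ℕ := Finsupp.single 0 (a + 1) + Finsupp.single 1 (b + 1)
  have hdt : t.degree = a + b + 2 := by
    simp [t, map_add]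
    omega
  have hL : (X 0 + X 1 : MvPolynomial (Fin 2) (ZMod p)).totalDegree ≤ 1 :=
    (totalDegree_add _ _).trans (by simp)
  have hM : (X 0 - X 1 : MvPolynomial (Fin 2) (ZMod p)).totalDegree ≤ 1 :=
    (totalDegree_sub _ _).trans (by simp)
  have e0 : t - Finsupp.single 0 1 = Finsupp.single 0 a + Finsupp.single 1 (b + 1) := by
    ext i; fin_cases i <;> simp [t]
  have e1 : t - Finsupp.single 1 1 = Finsupp.single 0 (a + 1) + Finsupp.single 1 b := by
    ext i; fin_cases i <;> simp [t]
  have hco : coeff t f = ((a + b + 1).choose a : ZMod p) - ((a + b + 1).choose (a + 1) : ℕ) := by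
    rw [coeff_top_prod _ hL S t (by omega) _ hM, hS, sub_mul, coeff_sub, coeff_X_mul',
      coeff_X_mul', if_pos (by simp [t]), if_pos (by simp [t]), e0, e1]
    conv_lhs => arg 1; rw [show a + b + 1 = a + (b + 1) by ring, coeff_add_pow]
    conv_lhs => arg 2; rw [show a + b + 1 = a + 1 + b by ring, coeff_add_pow]
    rw [show a + (b + 1) = a + b + 1 by ring,
      show (a + 1 + b) = a + b + 1 by ring]
  have hne0 : coeff t f ≠ 0 := by
    rw [hco]
    intro h0
    have h1 := Nat.choose_succ_right_eq (a + b + 1) a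
    rw [show a + b + 1 - a = b + 1 by omega] at h1
    have h2 := congrArg (Nat.cast : ℕ → ZMod p) h1
    push_cast at h2
    rw [← sub_eq_zero.1 h0, ← sub_eq_zero, ← mul_sub, mul_eq_zero] at h2
    have hsub : ((a : ZMod p) + 1 - ((b : ZMod p) + 1)) = ((a : ℤ) - b : ℤ) := by push_cast; ring
    rcases h2 with h2 | h2
    · rw [ZMod.natCast_eq_zero_iff] at h2
      have hdvd : p ∣ (a + b + 1).factorial :=
        h2.trans ⟨a.factorial * (a + b + 1 - a).factorial, by
          rw [← mul_assoc, Nat.choose_mul_factorial_mul_factorial (by omega)]⟩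
      have := (Nat.Prime.dvd_factorial Fact.out).1 hdvd
      omega
    · rw [hsub, ZMod.intCast_zmod_eq_zero_iff_dvd] at h2
      refine hne ?_
      have := Int.eq_zero_of_abs_lt_dvd h2 (by rw [abs_lt]; omega)
      omega
  have hdeg : f.totalDegree = t.degree := by
    refine le_antisymm ((totalDegree_mul _ _).trans ?_) ?_
    · have : (∏ c ∈ S, (X 0 + X 1 - C c : MvPolynomial (Fin 2) (ZMod p))).totalDegree ≤ #S := by
        refine (totalDegree_finsetProd _ _).trans ((sum_le_card_nsmul S _ 1 fun c _ => ?_).trans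
          (by simp))
        exact (totalDegree_sub _ _).trans (max_le hL (by simp))
      omega
    · rw [Finsupp.degree_apply]
      exact le_totalDegree (mem_support_iff.2 hne0)
  obtain ⟨x, hx, hev⟩ := combinatorial_nullstellensatz_exists_eval_nonzero f t hne0 hdeg ![A, B]
    (fun i => by fin_cases i <;> simp [t, ha, hb])
  refine hev ?_
  simp only [f, map_mul, map_prod, map_sub, map_add, eval_X, eval_C, mul_eq_zero]
  by_cases hxy : x 0 = x 1
  · exact Or.inl (sub_eq_zero.2 hxy)
  · exact Or.inr (prod_eq_zero (hS1 (mem_rsum.2 ⟨x 0, hx 0, x 1, hx 1, hxy, rfl⟩)) (sub_self _))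

/-- **The theorem of Alon, Nathanson and Ruzsa.** -/
theorem alon_nathanson_ruzsa {A B : Finset (ZMod p)} (hA : A.Nonempty) (hB : B.Nonempty)
    (hne : #A ≠ #B) : min p (#A + #B - 2) ≤ #(rsum A B) := by
  classical
  have small : ∀ {A B : Finset (ZMod p)}, #A = 1 → #B - 1 ≤ #(rsum A B) := by
    intro A B h
    obtain ⟨x, rfl⟩ := card_eq_one.1 h
    refine (le_trans ?_ (card_le_card_of_injOn (s := B.erase x) (fun y => x + y) ?_
      fun _ _ _ _ h => add_left_cancel h))
    · exact Nat.sub_le_iff_le_add.2 (by have := pred_card_le_card_erase (s := B) (a := x); omega)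
    · intro y hy
      exact mem_rsum.2 ⟨x, mem_singleton_self x, y, mem_of_mem_erase hy,
        (ne_of_mem_erase hy).symm, rfl⟩
  have comm : ∀ A B : Finset (ZMod p), rsum A B = rsum B A := fun A B => by
    ext z
    simp only [mem_rsum]
    constructor <;> rintro ⟨x, hx, y, hy, hxy, rfl⟩ <;> exact ⟨y, hy, x, hx, hxy.symm, add_comm _ _⟩
  rcases Nat.lt_or_ge (#A) 2 with h | h
  · have := small (B := B) (show #A = 1 by have := hA.card_pos; omega)
    omega
  rcases Nat.lt_or_ge (#B) 2 with h' | h'
  · have := small (B := A) (show #B = 1 by have := hB.card_pos; omega)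
    rw [comm]
    omega
  rcases Nat.lt_or_ge (p + 2) (#A + #B) with hp | hp
  · have hAp : #A ≤ p := (card_le_univ A).trans_eq (ZMod.card p)
    have hBp : #B ≤ p := (card_le_univ B).trans_eq (ZMod.card p)
    have hodd : p % 2 = 1 := (Fact.out : p.Prime).eq_two_or_odd.resolve_left (by omega)
    obtain ⟨A', hA', hcA⟩ := exists_subset_card_eq (show p + 2 - #B ≤ #A by omega)
    have := card_main (A := A') (B := B) (by omega) h' (by omega) (by omega)
    have := card_le_card (rsum_mono hA' (Subset.refl B))
    omega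
  · have := card_main h h' hne hp
    omega

/-- **The theorem of Dias da Silva and Hamidoune** for two summands. -/
theorem erdos_heilbronn (A : Finset (ZMod p)) : min p (2 * #A - 3) ≤ #(rsum A A) := by
  classical
  rcases Nat.lt_or_ge (#A) 2 with h | h
  · omega
  obtain ⟨x, hx⟩ := card_pos.1 (show 0 < #A by omega)
  have he : #(A.erase x) = #A - 1 := card_erase_of_mem hx
  have := alon_nathanson_ruzsa (A := A) (B := A.erase x) ⟨x, hx⟩
    (card_pos.1 (by omega)) (by omega)
  have := card_le_card (rsum_mono (Subset.refl A) (erase_subset x A))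
  omega

end FA.RestrictedSums

end
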